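/-
Shared library RR (Riemann–Roch for function fields), helper980:
abstract linear algebra of "relative quotients" `Y / X` of submodules of a vector space.
Mathlib only.  Sorry-free.
-/
import Mathlib.LinearAlgebra.FiniteDimensional.Defs
import Mathlib.LinearAlgebra.FiniteDimensional.Lemmas
import Mathlib.LinearAlgebra.Dimension.RankNullity
import Mathlib.LinearAlgebra.Isomorphisms
import Mathlib.RingTheory.Finiteness.Quotient

set_option autoImplicit false

noncomputable section

namespace Fermat.Agent.Lib.RR.H980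

open Module

variable {K V : Type*} [Field K] [AddCommGroup V] [Module K V]

/-- The relative quotient `Y / (X ∩ Y)`. -/
abbrev Quo (X Y : Submodule K V) : Type _ := ↥Y ⧸ X.submoduleOf Y

/-- The relative index `dim Y / (X ∩ Y)` (junk value `0` if infinite). -/
def idx (X Y : Submodule K V) : ℕ := finrank K (Quo X Y)

/-- `Y / (X ∩ Y)` is finite-dimensional. -/
def FinIdx (X Y : Submodule K V) : Prop := Module.Finite K (Quo X Y)

/-! ### Tower law -/

lemma mem_submoduleOf_iff {X Y : Submodule K V} {y : ↥Y} :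
    y ∈ X.submoduleOf Y ↔ (y : V) ∈ X := Iff.rfl

section tower

variable {X Y Z : Submodule K V}

/-- The injection `Y/X → Z/X` for `Y ≤ Z`. -/
def quoIncl (X : Submodule K V) {Y Z : Submodule K V} (hYZ : Y ≤ Z) : Quo X Y →ₗ[K] Quo X Z :=
  Submodule.mapQ _ _ (Submodule.inclusion hYZ) (fun _ hy => hy)

/-- The surjection `Z/X → Z/Y` for `X ≤ Y`. -/
def quoProj {X Y : Submodule K V} (hXY : X ≤ Y) (Z : Submodule K V) : Quo X Z →ₗ[K] Quo Y Z :=
  Submodule.mapQ _ _ LinearMap.id (fun _ hz => hXY hz)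

@[simp] lemma quoIncl_mk (X : Submodule K V) {Y Z : Submodule K V} (hYZ : Y ≤ Z) (y : ↥Y) :
    quoIncl X hYZ (Submodule.Quotient.mk y) = Submodule.Quotient.mk (Submodule.inclusion hYZ y) :=
  rfl

@[simp] lemma quoProj_mk {X Y : Submodule K V} (hXY : X ≤ Y) (Z : Submodule K V) (z : ↥Z) :
    quoProj hXY Z (Submodule.Quotient.mk z) = Submodule.Quotient.mk z := rfl

lemma quoIncl_injective (X : Submodule K V) {Y Z : Submodule K V} (hYZ : Y ≤ Z) :
    Function.Injective (quoIncl X hYZ) := by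
  rw [← LinearMap.ker_eq_bot, LinearMap.ker_eq_bot']
  intro q hq
  induction q using Submodule.Quotient.induction_on with
  | _ y =>
    rw [quoIncl_mk, Submodule.Quotient.mk_eq_zero] at hq
    rw [Submodule.Quotient.mk_eq_zero]
    exact hq

lemma quoProj_surjective {X Y : Submodule K V} (hXY : X ≤ Y) (Z : Submodule K V) :
    Function.Surjective (quoProj hXY Z) := by
  intro q
  induction q using Submodule.Quotient.induction_on with
  | _ z => exact ⟨Submodule.Quotient.mk z, rfl⟩

lemma range_quoIncl_eq_ker_quoProj (hXY : X ≤ Y) (hYZ : Y ≤ Z) :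
    LinearMap.range (quoIncl X hYZ) = LinearMap.ker (quoProj hXY Z) := by
  ext q
  induction q using Submodule.Quotient.induction_on with
  | _ z =>
    rw [LinearMap.mem_ker, quoProj_mk, Submodule.Quotient.mk_eq_zero, mem_submoduleOf_iff]
    constructor
    · rintro ⟨q', hq'⟩
      induction q' using Submodule.Quotient.induction_on with
      | _ y =>
        rw [quoIncl_mk, Submodule.Quotient.eq, mem_submoduleOf_iff] at hq'
        have hq'' : (y : V) - (z : V) ∈ X := hq'
        have : (z : V) = y - (y - z) := by abel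
        rw [this]
        exact Y.sub_mem y.2 (hXY hq'')
    · intro hz
      exact ⟨Submodule.Quotient.mk ⟨z, hz⟩, rfl⟩

/-- Tower law for relative indices. -/
theorem idx_tower (hXY : X ≤ Y) (hYZ : Y ≤ Z) (hfin : FinIdx X Z) :
    idx X Z = idx X Y + idx Y Z := by
  have : Module.Finite K (Quo X Z) := hfin
  have h1 := (quoProj hXY Z).finrank_range_add_finrank_ker
  rw [LinearMap.range_eq_top.mpr (quoProj_surjective hXY Z), finrank_top,
    ← range_quoIncl_eq_ker_quoProj hXY hYZ,
    LinearMap.finrank_range_of_inj (quoIncl_injective X hYZ)] at h1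
  unfold idx
  omega

theorem FinIdx.left (hYZ : Y ≤ Z) (hfin : FinIdx X Z) : FinIdx X Y := by
  have : Module.Finite K (Quo X Z) := hfin
  exact Module.Finite.of_injective (quoIncl X hYZ) (quoIncl_injective X hYZ)

theorem FinIdx.right (hXY : X ≤ Y) (hfin : FinIdx X Z) : FinIdx Y Z := by
  have : Module.Finite K (Quo X Z) := hfin
  exact Module.Finite.of_surjective (quoProj hXY Z) (quoProj_surjective hXY Z)

theorem FinIdx.trans (hXY : X ≤ Y) (hYZ : Y ≤ Z) (h1 : FinIdx X Y) (h2 : FinIdx Y Z) :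
    FinIdx X Z := by
  have : Module.Finite K (Quo X Y) := h1
  have : Module.Finite K (Quo Y Z) := h2
  have : Module.Finite K (LinearMap.ker (quoProj hXY Z)) := by
    rw [← range_quoIncl_eq_ker_quoProj hXY hYZ]
    infer_instance
  have : Module.Finite K (Quo X Z ⧸ LinearMap.ker (quoProj hXY Z)) :=
    Module.Finite.equiv ((quoProj hXY Z).quotKerEquivOfSurjective
      (quoProj_surjective hXY Z)).symm
  exact Module.Finite.of_submodule_quotient (LinearMap.ker (quoProj hXY Z))

end tower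

/-! ### Second isomorphism theorem, relative version -/

section second

variable {A₁ A₂ : Submodule K V} (P : Submodule K V)

/-- The surjection `A₂/A₁ → (A₂ + P)/(A₁ + P)`. -/
def supMap (h : A₁ ≤ A₂) : Quo A₁ A₂ →ₗ[K] Quo (A₁ ⊔ P) (A₂ ⊔ P) :=
  Submodule.mapQ _ _ (Submodule.inclusion (le_sup_left : A₂ ≤ A₂ ⊔ P))
    (fun _ hy => Submodule.mem_sup_left hy)

/-- The injection `(A₂ ∩ P)/(A₁ ∩ P) → A₂/A₁`. -/
def infMap (A₁ A₂ : Submodule K V) : Quo (A₁ ⊓ P) (A₂ ⊓ P) →ₗ[K] Quo A₁ A₂ :=
  Submodule.mapQ _ _ (Submodule.inclusion (inf_le_left : A₂ ⊓ P ≤ A₂))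
    (fun _ hy => (Submodule.mem_inf.mp hy).1)

@[simp] lemma supMap_mk (h : A₁ ≤ A₂) (a : ↥A₂) :
    supMap P h (Submodule.Quotient.mk a) =
      Submodule.Quotient.mk (Submodule.inclusion (le_sup_left : A₂ ≤ A₂ ⊔ P) a) := rfl

@[simp] lemma infMap_mk (b : ↥(A₂ ⊓ P)) :
    infMap P A₁ A₂ (Submodule.Quotient.mk b) =
      Submodule.Quotient.mk (Submodule.inclusion (inf_le_left : A₂ ⊓ P ≤ A₂) b) := rfl

lemma supMap_surjective (h : A₁ ≤ A₂) : Function.Surjective (supMap P h) := by
  intro q
  induction q using Submodule.Quotient.induction_on with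
  | _ z =>
    obtain ⟨a, ha, p, hp, hz⟩ := Submodule.mem_sup.mp z.2
    refine ⟨Submodule.Quotient.mk ⟨a, ha⟩, ?_⟩
    rw [supMap_mk, Submodule.Quotient.eq, mem_submoduleOf_iff]
    have : ((Submodule.inclusion (le_sup_left : A₂ ≤ A₂ ⊔ P) ⟨a, ha⟩ - z : ↥(A₂ ⊔ P)) : V)
        = -p := by
      rw [Submodule.coe_sub, Submodule.coe_inclusion, ← hz]
      simp
    rw [this]
    exact Submodule.mem_sup_right (P.neg_mem hp)

lemma infMap_injective : Function.Injective (infMap P A₁ A₂) := by
  rw [← LinearMap.ker_eq_bot, LinearMap.ker_eq_bot']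
  intro q hq
  induction q using Submodule.Quotient.induction_on with
  | _ b =>
    rw [infMap_mk, Submodule.Quotient.mk_eq_zero, mem_submoduleOf_iff] at hq
    rw [Submodule.Quotient.mk_eq_zero, mem_submoduleOf_iff]
    exact Submodule.mem_inf.mpr ⟨hq, (Submodule.mem_inf.mp b.2).2⟩

lemma range_infMap_eq_ker_supMap (h : A₁ ≤ A₂) :
    LinearMap.range (infMap P A₁ A₂) = LinearMap.ker (supMap P h) := by
  ext q
  induction q using Submodule.Quotient.induction_on with
  | _ a =>
    rw [LinearMap.mem_ker, supMap_mk, Submodule.Quotient.mk_eq_zero, mem_submoduleOf_iff]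
    constructor
    · rintro ⟨q', hq'⟩
      induction q' using Submodule.Quotient.induction_on with
      | _ b =>
        rw [infMap_mk, Submodule.Quotient.eq, mem_submoduleOf_iff] at hq'
        have hq'' : (b : V) - (a : V) ∈ A₁ := hq'
        have : (a : V) = -((b : V) - a) + b := by abel
        show (a : V) ∈ A₁ ⊔ P
        rw [this]
        exact Submodule.add_mem_sup (A₁.neg_mem hq'') (Submodule.mem_inf.mp b.2).2
    · intro ha
      have ha' : (a : V) ∈ A₁ ⊔ P := ha
      obtain ⟨a₁, ha₁, p, hp, hap⟩ := Submodule.mem_sup.mp ha'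
      have hpA : p ∈ A₂ := by
        have : p = a - a₁ := by rw [← hap]; abel
        rw [this]
        exact A₂.sub_mem a.2 (h ha₁)
      refine ⟨Submodule.Quotient.mk ⟨p, Submodule.mem_inf.mpr ⟨hpA, hp⟩⟩, ?_⟩
      rw [infMap_mk, Submodule.Quotient.eq, mem_submoduleOf_iff]
      have : ((Submodule.inclusion (inf_le_left : A₂ ⊓ P ≤ A₂)
          ⟨p, Submodule.mem_inf.mpr ⟨hpA, hp⟩⟩ - a : ↥A₂) : V) = -a₁ := by
        rw [Submodule.coe_sub, Submodule.coe_inclusion, ← hap]
        simp
      rw [this]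
      exact A₁.neg_mem ha₁

theorem FinIdx.sup (h : A₁ ≤ A₂) (hfin : FinIdx A₁ A₂) : FinIdx (A₁ ⊔ P) (A₂ ⊔ P) := by
  have : Module.Finite K (Quo A₁ A₂) := hfin
  exact Module.Finite.of_surjective (supMap P h) (supMap_surjective P h)

theorem FinIdx.inf (hfin : FinIdx A₁ A₂) : FinIdx (A₁ ⊓ P) (A₂ ⊓ P) := by
  have : Module.Finite K (Quo A₁ A₂) := hfin
  exact Module.Finite.of_injective (infMap P A₁ A₂) (infMap_injective P)

/-- `dim (A₂ + P)/(A₁ + P) + dim (A₂ ∩ P)/(A₁ ∩ P) = dim A₂/A₁`. -/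
theorem idx_sup_add_idx_inf (h : A₁ ≤ A₂) (hfin : FinIdx A₁ A₂) :
    idx (A₁ ⊔ P) (A₂ ⊔ P) + idx (A₁ ⊓ P) (A₂ ⊓ P) = idx A₁ A₂ := by
  have : Module.Finite K (Quo A₁ A₂) := hfin
  have h1 := (supMap P h).finrank_range_add_finrank_ker
  rw [LinearMap.range_eq_top.mpr (supMap_surjective P h), finrank_top,
    ← range_infMap_eq_ker_supMap P h,
    LinearMap.finrank_range_of_inj (infMap_injective P)] at h1
  exact h1

end second

/-! ### Quotients of the whole space -/

section whole

variable {X Y : Submodule K V}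

/-- `⊤ / X ≃ V / X`. -/
def quoTopEquiv (X : Submodule K V) : Quo X ⊤ ≃ₗ[K] V ⧸ X :=
  Submodule.Quotient.equiv (X.submoduleOf ⊤) X Submodule.topEquiv (by
    ext x
    simp only [Submodule.mem_map]
    constructor
    · rintro ⟨y, hy, rfl⟩
      exact hy
    · intro hx
      exact ⟨⟨x, Submodule.mem_top⟩, hx, rfl⟩)

lemma idx_top (X : Submodule K V) : idx X ⊤ = finrank K (V ⧸ X) :=
  (quoTopEquiv X).finrank_eq

lemma finIdx_top_iff (X : Submodule K V) : FinIdx X ⊤ ↔ Module.Finite K (V ⧸ X) :=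
  ⟨fun h => by
    have : Module.Finite K (Quo X ⊤) := h
    exact Module.Finite.equiv (quoTopEquiv X),
   fun h => Module.Finite.equiv (quoTopEquiv X).symm⟩

/-- If `Y/X` and `V/Y` are finite-dimensional, so is `V/X`, and dimensions add. -/
theorem finrank_quotient_eq_add (hXY : X ≤ Y) (h1 : FinIdx X Y) (h2 : Module.Finite K (V ⧸ Y)) :
    Module.Finite K (V ⧸ X) ∧ finrank K (V ⧸ X) = finrank K (V ⧸ Y) + idx X Y := by
  have h3 : FinIdx X ⊤ := FinIdx.trans hXY le_top h1 ((finIdx_top_iff Y).mpr h2)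
  refine ⟨(finIdx_top_iff X).mp h3, ?_⟩
  rw [← idx_top, ← idx_top, idx_tower hXY le_top h3, add_comm]

end whole

/-! ### Further lemmas -/

section misc

variable {X Y : Submodule K V}

lemma finIdx_self (X : Submodule K V) : FinIdx X X := by
  unfold FinIdx Quo
  rw [Submodule.submoduleOf_self]
  infer_instance

lemma idx_self (X : Submodule K V) : idx X X = 0 := by
  unfold idx Quo
  rw [Submodule.submoduleOf_self]
  exact finrank_zero_of_subsingleton

/-- For `X ≤ Y` with `Y` finite-dimensional, `dim Y/X + dim X = dim Y`. -/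
lemma idx_add_finrank (hXY : X ≤ Y) [Module.Finite K ↥Y] :
    idx X Y + finrank K ↥X = finrank K ↥Y := by
  have h := Submodule.finrank_quotient_add_finrank (X.submoduleOf Y)
  rw [(Submodule.submoduleOfEquivOfLe hXY).finrank_eq] at h
  exact h

/-- If `Y/X` is zero-dimensional then `Y ≤ X`. -/
lemma le_of_idx_eq_zero (hfin : FinIdx X Y) (h0 : idx X Y = 0) : Y ≤ X := by
  have : Module.Finite K (Quo X Y) := hfin
  have hs : Subsingleton (Quo X Y) := Module.finrank_zero_iff.mp h0
  intro y hy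
  have h1 : (Submodule.Quotient.mk ⟨y, hy⟩ : Quo X Y) = 0 := Subsingleton.elim _ _
  rw [Submodule.Quotient.mk_eq_zero, mem_submoduleOf_iff] at h1
  exact h1

end misc

end Fermat.Agent.Lib.RR.H980

end
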