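/-
Shared library RR (Riemann–Roch for function fields), helper980:
the adelic layer in the language of the Prelude (`repartitions`, `repartitionsOf`, `H1`).
Sorry-free.
-/
import Fermat.Agent.Lib.RR.Basic
import Fermat.Agent.Lib.RR.H980.LinAlg

set_option autoImplicit false

noncomputable section

namespace Fermat.Agent.Lib.RR.H980

open AlgebraicCurve Module
open Fermat.Agent.Lib.RR

variable {K F : Type*} [Field K] [Field F] [Algebra K F]

/-! ### Uniformizers -/

/-- A chosen uniformizer at the place `v`. -/
def unif (v : Place K F) : F := (exists_ord_eq_one v).choose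

lemma ord_unif (v : Place K F) : v.ord (unif v) = 1 :=
  (exists_ord_eq_one v).choose_spec

lemma unif_ne_zero (v : Place K F) : unif v ≠ 0 := by
  intro h
  have := ord_unif v
  rw [h, Place.ord_zero] at this
  exact zero_ne_one this

lemma ord_unif_zpow_mul (v : Place K F) (n : ℤ) {f : F} (hf : f ≠ 0) :
    v.ord (unif v ^ n * f) = n + v.ord f := by
  rw [v.ord_mul (zpow_ne_zero _ (unif_ne_zero v)) hf, v.ord_zpow, ord_unif, mul_one]

/-! ### Elements of `repartitionsOf` -/

lemma val_apply_add (α β : ↥(repartitions K F)) (v : Place K F) :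
    ((α + β : ↥(repartitions K F)) : Place K F → F) v =
      (α : Place K F → F) v + (β : Place K F → F) v := rfl

lemma val_apply_smul (c : K) (α : ↥(repartitions K F)) (v : Place K F) :
    ((c • α : ↥(repartitions K F)) : Place K F → F) v =
      algebraMap K F c * (α : Place K F → F) v := by
  show (c • (α : Place K F → F)) v = _
  rw [Pi.smul_apply, Algebra.smul_def]

lemma ord_ge_of_mem {D : Divisor K F} {α : ↥(repartitions K F)} (h : α ∈ repartitionsOf D)
    (v : Place K F) (hne : (α : Place K F → F) v ≠ 0) :
    -D v ≤ v.ord ((α : Place K F → F) v) :=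
  ((mem_repartitionsOf_iff.mp h) v).resolve_left hne

/-! ### The step `A(D) ⊆ A(D + v)` -/

/-- `D + v`. -/
def addPt (D : Divisor K F) (v : Place K F) : Divisor K F := D + prim v

lemma addPt_def (D : Divisor K F) (v : Place K F) : addPt D v = D + prim v := rfl

lemma addPt_apply_self (D : Divisor K F) (v : Place K F) : addPt D v v = D v + 1 := by
  simp [addPt, prim]

lemma addPt_apply_of_ne (D : Divisor K F) {v w : Place K F} (h : w ≠ v) :
    addPt D v w = D w := by
  simp [addPt, prim, Ne.symm h]

lemma le_addPt (D : Divisor K F) (v : Place K F) : D ≤ addPt D v := by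
  rw [Finsupp.le_def]
  intro w
  by_cases h : w = v
  · subst h; rw [addPt_apply_self]; omega
  · rw [addPt_apply_of_ne D h]

lemma repartitionsOf_le_addPt (D : Divisor K F) (v : Place K F) :
    repartitionsOf D ≤ repartitionsOf (addPt D v) :=
  repartitionsOf_mono (le_addPt D v)

lemma degree_addPt (D : Divisor K F) (v : Place K F) :
    Divisor.degree (addPt D v) = Divisor.degree D + v.deg := by
  rw [addPt, prim, map_add, Divisor.degree_single, one_mul]

/-- The twisted value `π ^ (D v + 1) * α v` is integral at `v` for `α ∈ A(D + v)`. -/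
lemma twist_mem (D : Divisor K F) (v : Place K F) {α : ↥(repartitions K F)}
    (h : α ∈ repartitionsOf (addPt D v)) :
    unif v ^ (D v + 1) * (α : Place K F → F) v ∈ v.toValuationSubring := by
  by_cases hne : (α : Place K F → F) v = 0
  · rw [hne, mul_zero]; exact zero_mem _
  · apply mem_of_ord_nonneg
    rw [ord_unif_zpow_mul v _ hne]
    have := ord_ge_of_mem h v hne
    rw [addPt_apply_self] at this
    omega

/-- The residue map `A(D + v) → k(v)`, `α ↦ (π ^ (D v + 1) * α v) mod 𝔪_v`. -/
def resMap (D : Divisor K F) (v : Place K F) :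
    ↥(repartitionsOf (addPt D v)) →ₗ[K] v.ResidueField where
  toFun α := IsLocalRing.residue _
    (⟨unif v ^ (D v + 1) * ((α : ↥(repartitions K F)) : Place K F → F) v,
      twist_mem D v α.2⟩ : v.toValuationSubring)
  map_add' α β := by
    rw [← map_add]
    congr 1
    apply Subtype.ext
    show unif v ^ (D v + 1) * (((α + β : ↥(repartitionsOf (addPt D v))) : ↥(repartitions K F)) :
      Place K F → F) v = _
    rw [Submodule.coe_add, val_apply_add, mul_add]
    rfl
  map_smul' c α := by
    rw [RingHom.id_apply, Algebra.smul_def,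
      IsScalarTower.algebraMap_apply K v.toValuationSubring v.ResidueField]
    show _ = IsLocalRing.residue _ _ * IsLocalRing.residue _ _
    rw [← map_mul]
    congr 1
    apply Subtype.ext
    show unif v ^ (D v + 1) * (((c • α : ↥(repartitionsOf (addPt D v))) : ↥(repartitions K F)) :
      Place K F → F) v = _
    rw [Submodule.coe_smul, val_apply_smul]
    show _ = algebraMap K F c * (unif v ^ (D v + 1) * _)
    ring

lemma resMap_apply (D : Divisor K F) (v : Place K F) (α : ↥(repartitionsOf (addPt D v))) :
    resMap D v α = IsLocalRing.residue _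
      (⟨unif v ^ (D v + 1) * ((α : ↥(repartitions K F)) : Place K F → F) v,
        twist_mem D v α.2⟩ : v.toValuationSubring) := rfl

lemma mem_maximalIdeal_mk_iff (v : Place K F) {x : F} (hx : x ∈ v.toValuationSubring) :
    (⟨x, hx⟩ : v.toValuationSubring) ∈ IsLocalRing.maximalIdeal v.toValuationSubring ↔
      x = 0 ∨ 0 < v.ord x :=
  Fermat.Agent.Lib.RR.mem_maximalIdeal_iff v ⟨x, hx⟩

lemma ker_resMap (D : Divisor K F) (v : Place K F) :
    LinearMap.ker (resMap D v) =
      (repartitionsOf D).submoduleOf (repartitionsOf (addPt D v)) := by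
  ext α
  rw [LinearMap.mem_ker, resMap_apply, IsLocalRing.residue_eq_zero_iff,
    mem_maximalIdeal_mk_iff, mem_submoduleOf_iff, mem_repartitionsOf_iff]
  have hα := mem_repartitionsOf_iff.mp α.2
  constructor
  · intro h w
    by_cases hw : w = v
    · subst hw
      by_cases hne : ((α : ↥(repartitions K F)) : Place K F → F) w = 0
      · exact Or.inl hne
      · right
        rcases h with h | h
        · exact absurd h (mul_ne_zero (zpow_ne_zero _ (unif_ne_zero w)) hne)
        · rw [ord_unif_zpow_mul w _ hne] at h
          omega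
    · have := hα w
      rw [addPt_apply_of_ne D hw] at this
      exact this
  · intro h
    by_cases hne : ((α : ↥(repartitions K F)) : Place K F → F) v = 0
    · left; rw [hne, mul_zero]
    · right
      rw [ord_unif_zpow_mul v _ hne]
      have := (h v).resolve_left hne
      omega

open Classical in
/-- The repartition supported at the single place `v` with value `x`. -/
def singleRep (v : Place K F) (x : F) : ↥(repartitions K F) :=
  ⟨Pi.single v x, mem_repartitions_of_finite_ord (by
    refine (Set.finite_singleton v).subset fun w hw => ?_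
    by_contra hne
    have hne' : w ≠ v := hne
    simp only [Set.mem_ofPred_eq, Pi.single_apply, hne', if_false, Place.ord_zero,
      lt_self_iff_false] at hw)⟩

lemma singleRep_apply_self (v : Place K F) (x : F) :
    ((singleRep v x : ↥(repartitions K F)) : Place K F → F) v = x := by
  simp [singleRep]

lemma singleRep_apply_of_ne (v : Place K F) (x : F) {w : Place K F} (h : w ≠ v) :
    ((singleRep v x : ↥(repartitions K F)) : Place K F → F) w = 0 := by
  simp [singleRep, h]

lemma singleRep_mem (D : Divisor K F) (v : Place K F) {x : F}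
    (hx : x = 0 ∨ -D v ≤ v.ord x) : singleRep v x ∈ repartitionsOf D := by
  rw [mem_repartitionsOf_iff]
  intro w
  by_cases hw : w = v
  · subst hw
    rw [singleRep_apply_self]
    exact hx
  · left
    exact singleRep_apply_of_ne v x hw

lemma resMap_surjective (D : Divisor K F) (v : Place K F) :
    Function.Surjective (resMap D v) := by
  intro c
  obtain ⟨u, rfl⟩ := IsLocalRing.residue_surjective c
  have hmem : singleRep v (unif v ^ (-(D v + 1)) * (u : F)) ∈ repartitionsOf (addPt D v) := by
    apply singleRep_mem
    by_cases hu : (u : F) = 0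
    · left; rw [hu, mul_zero]
    · right
      rw [ord_unif_zpow_mul v _ hu, addPt_apply_self]
      have := ord_nonneg_of_mem v u.2
      omega
  refine ⟨⟨_, hmem⟩, ?_⟩
  rw [resMap_apply]
  congr 1
  apply Subtype.ext
  show unif v ^ (D v + 1) * ((singleRep v (unif v ^ (-(D v + 1)) * (u : F)) :
    ↥(repartitions K F)) : Place K F → F) v = u
  rw [singleRep_apply_self, ← mul_assoc, ← zpow_add₀ (unif_ne_zero v)]
  simp

/-- `A(D + v) / A(D) ≃ k(v)`. -/
def quoAddPtEquiv (D : Divisor K F) (v : Place K F) :
    Quo (repartitionsOf D) (repartitionsOf (addPt D v)) ≃ₗ[K] v.ResidueField :=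
  (Submodule.quotEquivOfEq _ _ (ker_resMap D v).symm).trans
    ((resMap D v).quotKerEquivOfSurjective (resMap_surjective D v))

lemma idx_addPt (D : Divisor K F) (v : Place K F) :
    idx (repartitionsOf D) (repartitionsOf (addPt D v)) = v.deg :=
  (quoAddPtEquiv D v).finrank_eq

lemma finIdx_addPt (D : Divisor K F) (v : Place K F) [Module.Finite K v.ResidueField] :
    FinIdx (repartitionsOf D) (repartitionsOf (addPt D v)) :=
  Module.Finite.equiv (quoAddPtEquiv D v).symm

/-! ### `dim A(D') / A(D) = deg D' - deg D` -/

section FF1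

variable [hFF : FF1 K F]

lemma finite_residueField (v : Place K F) : Module.Finite K v.ResidueField := by
  have h : Module.finrank K v.ResidueField = 1 := deg_eq_one v
  exact Module.finite_of_finrank_pos (by rw [h]; exact Nat.one_pos)

/-- For `D ≤ D'`, `A(D')/A(D)` has dimension `deg D' - deg D`. -/
theorem finIdx_and_idx_repartitionsOf {D D' : Divisor K F} (h : D ≤ D') :
    FinIdx (repartitionsOf D) (repartitionsOf D') ∧
      (idx (repartitionsOf D) (repartitionsOf D') : ℤ) =
        Divisor.degree D' - Divisor.degree D := by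
  refine induction_ge (P := fun D' => FinIdx (repartitionsOf D) (repartitionsOf D') ∧
      (idx (repartitionsOf D) (repartitionsOf D') : ℤ) =
        Divisor.degree D' - Divisor.degree D) D ?_ ?_ D' h
  · exact ⟨finIdx_self _, by rw [idx_self]; simp⟩
  · intro D'' v hle ⟨hfin, hidx⟩
    have h1 : repartitionsOf D ≤ repartitionsOf D'' := repartitionsOf_mono hle
    have h2 : repartitionsOf D'' ≤ repartitionsOf (D'' + prim v) := repartitionsOf_le_addPt D'' v
    have : Module.Finite K v.ResidueField := finite_residueField v
    have hfin2 : FinIdx (repartitionsOf D'') (repartitionsOf (D'' + prim v)) :=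
      finIdx_addPt D'' v
    have hidx2 : idx (repartitionsOf D'') (repartitionsOf (D'' + prim v)) = 1 := by
      have := idx_addPt D'' v
      rw [deg_eq_one v] at this
      exact this
    have hfin3 := FinIdx.trans h1 h2 hfin hfin2
    refine ⟨hfin3, ?_⟩
    rw [idx_tower h1 h2 hfin3, hidx2, map_add, degree_prim']
    push_cast
    omega

/-! ### `A(D) ∩ F = L(D)` -/

/-- The diagonal embedding `F → 𝔸`, as a `K`-linear map. -/
def diag : F →ₗ[K] ↥(repartitions K F) :=
  (Algebra.linearMap F ↥(repartitions K F)).restrictScalars K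

omit hFF in
lemma diag_apply (f : F) (v : Place K F) :
    ((diag f : ↥(repartitions K F)) : Place K F → F) v = f := by
  show ((algebraMap F ↥(repartitions K F) f : ↥(repartitions K F)) : Place K F → F) v = f
  rw [Subalgebra.coe_algebraMap]
  rfl

lemma diag_injective : Function.Injective (diag (K := K) (F := F)) := by
  intro f g hfg
  obtain ⟨v₀⟩ := hFF.nonempty_place
  have := congrArg (fun α : ↥(repartitions K F) => (α : Place K F → F) v₀) hfg
  simpa [diag_apply] using this

omit hFF in
lemma range_diag : LinearMap.range (diag (K := K) (F := F)) = principalRepartitions K F := by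
  ext α
  rw [mem_principalRepartitions_iff]
  constructor
  · rintro ⟨f, rfl⟩
    exact ⟨f, funext fun v => diag_apply f v⟩
  · rintro ⟨f, hf⟩
    refine ⟨f, Subtype.ext ?_⟩
    rw [hf]
    exact funext fun v => diag_apply f v

omit hFF in
lemma diag_mem_repartitionsOf_iff (D : Divisor K F) (f : F) :
    diag f ∈ repartitionsOf D ↔ f ∈ riemannRochSpace D := by
  rw [mem_repartitionsOf_iff, mem_L_iff]
  simp only [diag_apply]

omit hFF in
lemma map_diag_L (D : Divisor K F) :
    (riemannRochSpace D).map (diag (K := K) (F := F)) =
      repartitionsOf D ⊓ principalRepartitions K F := by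
  ext α
  rw [Submodule.mem_map, Submodule.mem_inf, ← range_diag]
  constructor
  · rintro ⟨f, hf, rfl⟩
    exact ⟨(diag_mem_repartitionsOf_iff D f).mpr hf, ⟨f, rfl⟩⟩
  · rintro ⟨hα, ⟨f, rfl⟩⟩
    exact ⟨f, (diag_mem_repartitionsOf_iff D f).mp hα, rfl⟩

/-- `L(D) ≃ A(D) ∩ F`. -/
def LEquiv (D : Divisor K F) :
    ↥(riemannRochSpace D) ≃ₗ[K] ↥(repartitionsOf D ⊓ principalRepartitions K F) :=
  (Submodule.equivMapOfInjective diag diag_injective (riemannRochSpace D)).trans
    (LinearEquiv.ofEq _ _ (map_diag_L D))

lemma finrank_inf (D : Divisor K F) :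
    finrank K ↥(repartitionsOf D ⊓ principalRepartitions K F) = ell D :=
  (LEquiv D).finrank_eq.symm

instance finite_inf (D : Divisor K F) :
    Module.Finite K ↥(repartitionsOf D ⊓ principalRepartitions K F) :=
  Module.Finite.equiv (LEquiv D)

lemma idx_inf_eq {D D' : Divisor K F} (h : D ≤ D') :
    (idx (repartitionsOf D ⊓ principalRepartitions K F)
      (repartitionsOf D' ⊓ principalRepartitions K F) : ℤ) = (ell D' : ℤ) - ell D := by
  have h1 : repartitionsOf D ⊓ principalRepartitions K F ≤
      repartitionsOf D' ⊓ principalRepartitions K F :=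
    inf_le_inf_right _ (repartitionsOf_mono h)
  have h2 := idx_add_finrank h1
  rw [finrank_inf, finrank_inf] at h2
  omega

/-- `dim (A(D') + F)/(A(D) + F) = (deg D' - ℓ(D')) - (deg D - ℓ(D))` for `D ≤ D'`. -/
theorem finIdx_and_idx_sup {D D' : Divisor K F} (h : D ≤ D') :
    FinIdx (repartitionsOf D ⊔ principalRepartitions K F)
        (repartitionsOf D' ⊔ principalRepartitions K F) ∧
      (idx (repartitionsOf D ⊔ principalRepartitions K F)
        (repartitionsOf D' ⊔ principalRepartitions K F) : ℤ) =
        (Divisor.degree D' - ell D') - (Divisor.degree D - ell D) := by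
  obtain ⟨hfin, hidx⟩ := finIdx_and_idx_repartitionsOf h
  have hle := repartitionsOf_mono h
  refine ⟨FinIdx.sup _ hle hfin, ?_⟩
  have h1 := idx_sup_add_idx_inf (principalRepartitions K F) hle hfin
  have h2 := idx_inf_eq h
  omega

end FF1

end Fermat.Agent.Lib.RR.H980

end
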