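/-
Shared library RR, layer L4 (helper980): `H¹(D)` is finite-dimensional and
`ℓ(D) - dim H¹(D) = deg D + 1 - g` (Riemann–Roch, first form), hypothesis-explicit:
* `g` with Riemann's inequality, attained somewhere (layer L3);
* repartitions have finitely many poles (L4.0).
Sorry-free.
-/
import Fermat.Agent.Lib.RR.H980.Adele

set_option autoImplicit false

noncomputable section

namespace Fermat.Agent.Lib.RR.H980

open AlgebraicCurve Module
open Fermat.Agent.Lib.RR

variable {K F : Type*} [Field K] [Field F] [Algebra K F]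

open Classical in
/-- Every repartition with finitely many poles lies in `A(D')` for some `D' ≥ D₀`. -/
lemma exists_ge_mem_repartitionsOf (D₀ : Divisor K F) (α : ↥(repartitions K F))
    (hfin : {v : Place K F | v.ord ((α : Place K F → F) v) < 0}.Finite) :
    ∃ D' : Divisor K F, D₀ ≤ D' ∧ α ∈ repartitionsOf D' := by
  let E : Divisor K F := Finsupp.onFinset hfin.toFinset
    (fun v => max 0 (-(v.ord ((α : Place K F → F) v)))) (fun v hv => by
      rw [Set.Finite.mem_toFinset, Set.mem_ofPred_eq]
      by_contra hcon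
      apply hv
      rw [not_lt] at hcon
      exact max_eq_left (by omega))
  refine ⟨D₀ ⊔ E, le_sup_left, ?_⟩
  rw [mem_repartitionsOf_iff]
  intro v
  right
  have h1 : E v ≤ (D₀ ⊔ E) v := Finsupp.le_def.mp le_sup_right v
  have h2 : E v = max 0 (-(v.ord ((α : Place K F → F) v))) := rfl
  have h3 := le_max_right 0 (-(v.ord ((α : Place K F → F) v)))
  omega

variable [hFF : FF1 K F]

/-- **L4.1 + L4.2**, hypothesis-explicit. -/
theorem finite_H1_and_formula (g : ℤ)
    (hineq : ∀ D : Divisor K F, Divisor.degree D + 1 - g ≤ ell D)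
    (hattain : ∃ D : Divisor K F, (ell D : ℤ) = Divisor.degree D + 1 - g)
    (hrep : ∀ α : Place K F → F, α ∈ repartitions K F →
      {v : Place K F | v.ord (α v) < 0}.Finite)
    (D : Divisor K F) :
    Module.Finite K (H1 D) ∧
      (ell D : ℤ) - Module.finrank K (H1 D) = Divisor.degree D + 1 - g := by
  obtain ⟨D₀, hD₀⟩ := hattain
  have hatt : ∀ D' : Divisor K F, D₀ ≤ D' → (ell D' : ℤ) = Divisor.degree D' + 1 - g := by
    intro D' h
    have h1 := degree_sub_ell_mono h
    have h2 := hineq D'
    omega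
  -- above `D₀` the spaces `A(D') + F` do not grow
  have hstab : ∀ D' D'' : Divisor K F, D₀ ≤ D' → D' ≤ D'' →
      repartitionsOf D'' ⊔ principalRepartitions K F ≤
        repartitionsOf D' ⊔ principalRepartitions K F := by
    intro D' D'' h1 h2
    obtain ⟨hfin, hidx⟩ := finIdx_and_idx_sup h2
    have e1 := hatt D' h1
    have e2 := hatt D'' (h1.trans h2)
    exact le_of_idx_eq_zero hfin (by omega)
  have htop : ∀ D' : Divisor K F, D₀ ≤ D' →
      repartitionsOf D' ⊔ principalRepartitions K F = ⊤ := by
    intro D' h1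
    rw [eq_top_iff]
    intro α _
    obtain ⟨D'', h2, hα⟩ := exists_ge_mem_repartitionsOf D' α (hrep _ α.2)
    exact hstab D' D'' h1 h2 (Submodule.mem_sup_left hα)
  -- descend from `D₁ = D ⊔ D₀`
  have hle : D ≤ D ⊔ D₀ := le_sup_left
  have hY := htop (D ⊔ D₀) le_sup_right
  have hsub : Subsingleton (↥(repartitions K F) ⧸
      (repartitionsOf (D ⊔ D₀) ⊔ principalRepartitions K F)) :=
    Submodule.Quotient.subsingleton_iff.mpr hY
  have hfinY : Module.Finite K (↥(repartitions K F) ⧸
      (repartitionsOf (D ⊔ D₀) ⊔ principalRepartitions K F)) := inferInstance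
  obtain ⟨hfin, hidx⟩ := finIdx_and_idx_sup hle
  obtain ⟨hF, hrank⟩ := finrank_quotient_eq_add
    (sup_le_sup_right (repartitionsOf_mono hle) _) hfin hfinY
  refine ⟨hF, ?_⟩
  have h0 : finrank K (↥(repartitions K F) ⧸
      (repartitionsOf (D ⊔ D₀) ⊔ principalRepartitions K F)) = 0 :=
    finrank_zero_of_subsingleton
  have e1 := hatt (D ⊔ D₀) le_sup_right
  have hrank' : finrank K (H1 D) = idx (repartitionsOf D ⊔ principalRepartitions K F)
      (repartitionsOf (D ⊔ D₀) ⊔ principalRepartitions K F) := by
    rw [h0, zero_add] at hrank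
    exact hrank
  rw [hrank']
  omega

end Fermat.Agent.Lib.RR.H980

end
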