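/-
Shared library RR, layer L4.0 (helper980): the repartitions are exactly the families with
finitely many poles.  Exact skeleton statement `mem_repartitions_iff`.
Sorry-free.
-/
import Fermat.Agent.Lib.RR.Basic

set_option autoImplicit false

noncomputable section

namespace Fermat.Agent.Lib.RR.H980

open AlgebraicCurve
open Fermat.Agent.Lib.RR

variable {K F : Type*} [Field K] [Field F] [Algebra K F]

/-- The poles of a nonzero function are finite in number. -/
lemma finite_poles [HasPrincipalDivisors K F] (f : F) : {v : Place K F | v.ord f < 0}.Finite := by
  rcases eq_or_ne f 0 with rfl | hf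
  · simp
  · obtain ⟨D, hD, -⟩ := HasPrincipalDivisors.exists_divisor (K := K) f hf
    refine D.support.finite_toSet.subset fun v hv => ?_
    rw [Finset.mem_coe, Finsupp.mem_support_iff, hD v]
    have : v.ord f < 0 := hv
    omega

/-- **L4.0**: the repartitions are exactly the families with finitely many poles. -/
theorem mem_repartitions_iff [HasPrincipalDivisors K F] {α : Place K F → F} :
    α ∈ repartitions K F ↔ {v : Place K F | v.ord (α v) < 0}.Finite := by
  constructor
  · intro hα
    unfold repartitions at hα
    induction hα using Algebra.adjoin_induction with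
    | mem x hx =>
      have hx' : {v : Place K F | ¬v.adicValuation (x v) ≤ 1}.Finite := hx
      rwa [show {v : Place K F | ¬v.adicValuation (x v) ≤ 1}
        = {v : Place K F | v.ord (x v) < 0} from
        Set.ext fun v => v.not_adicValuation_le_one_iff] at hx'
    | algebraMap f =>
      exact finite_poles f
    | add x y _ _ hx hy =>
      refine (hx.union hy).subset fun v hv => ?_
      have hv' : v.ord (x v + y v) < 0 := hv
      by_contra hcon
      rw [Set.mem_union, not_or] at hcon
      have h1 : 0 ≤ v.ord (x v) := not_lt.mp hcon.1
      have h2 : 0 ≤ v.ord (y v) := not_lt.mp hcon.2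
      have hm := add_mem (mem_of_ord_nonneg v h1) (mem_of_ord_nonneg v h2)
      have := ord_nonneg_of_mem v hm
      omega
    | mul x y _ _ hx hy =>
      refine (hx.union hy).subset fun v hv => ?_
      have hv' : v.ord (x v * y v) < 0 := hv
      by_contra hcon
      rw [Set.mem_union, not_or] at hcon
      have h1 : 0 ≤ v.ord (x v) := not_lt.mp hcon.1
      have h2 : 0 ≤ v.ord (y v) := not_lt.mp hcon.2
      have hm := mul_mem (mem_of_ord_nonneg v h1) (mem_of_ord_nonneg v h2)
      have := ord_nonneg_of_mem v hm
      omega
  · exact mem_repartitions_of_finite_ord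

end Fermat.Agent.Lib.RR.H980

end
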